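import Fermat.Agent.Flat.Kummer.OfChar
import Fermat.Agent.Flat.FixedPlaces
import Fermat.Prelude.Thm_ModularCurve_coeffMap_qExpand

/-!
# Galois equivariance of the Kummer relation

The Galois action `galChar` on characters, defined by conjugating coefficients of forms with that
multiplier, matches the action on divisor classes through the coefficients of the expansion at `∞`.
So a Galois stable group of unramified characters of exponent `n` of `Γ₀(N)` embeds equivariantly
in `J₀(N)` (`exists_hom_jZero`).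
-/

set_option autoImplicit false

noncomputable section

open UpperHalfPlane hiding I
open AlgebraicCurve
open scoped MatrixGroups Manifold
open CongruenceSubgroup (Gamma0)
open FermatAgent.Curve FermatAgent.GaloisBasic FermatAgent.Mazur
open FermatAgent.ES (parGroup IsParChar IsTwist HasExp galChar autC autC_spec)
open ModularCurve (qExpand coeffMap)

namespace FermatAgent.Flat.Kummer

attribute [local instance] Mazur.embAlg

variable {N : ℕ} [NeZero N]

theorem coeffMap_lsC (σ : GQ) (s : LaurentSeries Qbar) :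
    coeffMap (autC σ : ℂ →+* ℂ) (lsC s) = lsC (coeffMap (σ : Qbar →+* Qbar) s) := by
  rw [ModularCurve.coeffMap_coeffMap, ModularCurve.coeffMap_coeffMap]
  exact ModularCurve.coeffMap_congr (RingHom.ext fun a => autC_spec σ a) s

theorem coeffMap_deltaSer (σ : ℂ ≃+* ℂ) (M : ℕ) [NeZero M] :
    coeffMap (σ : ℂ →+* ℂ) (deltaSer M) = deltaSer M := by
  rw [deltaSer, _root_.ModularCurve.coeffMap_qExpand, ModularCurve.coeffMap_ofPowerSeries,
    map_mul, PowerSeries.map_X]
  congr 3
  ext j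
  simp

/-- If `φ` is the multiplier of `c`, then `galChar σ φ` is the multiplier of the class conjugate
under an automorphism `g` acting as `σ` on expansions at `∞`. -/
theorem exists_isKummer_galois {n : ℕ} (hn : 0 < n) [NeZero n] (φ : parGroup (Gamma0 N) n)
    (hfin : ∀ δ : Gamma0 N, IsOfFinOrder δ → (φ : Gamma0 N →* ℂˣ) δ = 1) (σ : GQ)
    (g : SemilinearAut Qbar (jField Qbar N))
    (hg : ∀ x : jField Qbar N, ((g • x : jField Qbar N) : LaurentSeries Qbar) =
      coeffMap (σ : Qbar →+* Qbar) (x : LaurentSeries Qbar))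
    {c : Pic0 Qbar (jField Qbar N)} (hc : IsKummer n (φ : Gamma0 N →* ℂˣ) c) :
    IsKummer n (galChar (ES.goodLevel_Gamma0 N) n σ φ : Gamma0 N →* ℂˣ) (g • c) := by
  obtain ⟨w, cw, D, f, hw, hw0, hwc, hf, hD, hl⟩ := exists_isKummer_form hn φ hfin
  rw [hc.class_unique hn (isKummer_of_form hw hw0 hf hD hl)]
  obtain ⟨a, ha, hσ⟩ := ES.exists_unit_exponent (12 * N) (autC σ)
  have hw' : IsTwist (Gamma0 N) ((2 * 6 : ℕ) : ℤ) (φ : Gamma0 N →* ℂˣ) w := by exact_mod_cast hw
  obtain ⟨φ', w', hv', hv'0, hn', hp', hser⟩ := ES.exists_conj_twist (ES.auxLevel12 N)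
    (dvd_mul_left N 12) (ES.goodLevel_Gamma0 N).toGalStable (ES.goodLevel_Gamma0 N).neg_mem
    ha hσ hn φ.2.1 φ.2.2 hw' hw0
  have heq : galChar (ES.goodLevel_Gamma0 N) n σ φ = ⟨φ', hn', hp'⟩ :=
    ES.conjChar_eq (ES.goodLevel_Gamma0 N) ⟨6, w, w', cw, hw', hw0, hv', hv'0, hwc, hser _ hwc⟩
  rw [heq]
  have hv'12 : IsTwist (Gamma0 N) 12 φ' w' := by exact_mod_cast hv'
  obtain ⟨S, hS⟩ := exists_hasLoc_of_invariant (kumRoot_invariant hv'12 hn')
    (ES.act_one (kumRoot w' ^ n) ▸ act_kumRoot_pow_mem hv'12 n 1)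
  -- the expansion of the conjugate
  have hSf : S = lsC ((g • f : jField Qbar N) : LaurentSeries Qbar) := by
    have h1 := congrArg (coeffMap (autC σ : ℂ →+* ℂ)) (kumRoot_series n hwc hl)
    rw [map_mul, map_pow, map_pow, _root_.ModularCurve.coeffMap_qExpand, coeffMap_deltaSer,
      coeffMap_lsC, ModularCurve.coeffMap_ofPowerSeries, ← hg,
      ← kumRoot_series n (hser _ hwc) hS] at h1
    exact (ModularCurve.qExpand_injective _
      (mul_right_cancel₀ (pow_ne_zero n (deltaSer_ne_zero _)) h1)).symm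
  subst hSf
  rw [SemilinearAut.pic0_smul_mk]
  refine isKummer_of_form hv'12 hv'0 (fun h0 => hf ?_) ?_ hS
  · rwa [← smul_zero g, (MulAction.injective g).eq_iff] at h0
  · rw [SemilinearAut.coe_degZeroSMulHom, ← smul_divisorOf, hD, smul_comm]

/-- Sending a character to its class is an injective Galois equivariant homomorphism from a
Galois stable group of unramified characters of exponent `n` to the classes of degree zero. -/
theorem exists_hom_isKummer (n : ℕ) [NeZero n] (M : Subgroup (parGroup (Gamma0 N) n))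
    (hM : ∀ φ ∈ M, ∀ δ : Gamma0 N, IsOfFinOrder δ → (φ : Gamma0 N →* ℂˣ) δ = 1)
    (hgal : ∀ (σ : GQ), ∀ φ ∈ M, galChar (ES.goodLevel_Gamma0 N) n σ φ ∈ M)
    (g : GQ → SemilinearAut Qbar (jField Qbar N))
    (hg : ∀ σ (x : jField Qbar N), ((g σ • x : jField Qbar N) : LaurentSeries Qbar) =
      coeffMap (σ : Qbar →+* Qbar) (x : LaurentSeries Qbar)) :
    ∃ cls : Additive M →+ Pic0 Qbar (jField Qbar N), Function.Injective cls ∧
      (∀ (σ : GQ) (φ : M),
        cls (Additive.ofMul ⟨_, hgal σ φ φ.2⟩) = g σ • cls (Additive.ofMul φ)) ∧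
      ∀ φ : M, IsKummer n ((φ : parGroup (Gamma0 N) n) : Gamma0 N →* ℂˣ)
        (cls (Additive.ofMul φ)) := by
  have hn := NeZero.pos n
  choose c hc using fun φ : M => exists_isKummer_of_char (N := N) hn (φ : parGroup (Gamma0 N) n)
    (hM φ φ.2)
  let cls : Additive M →+ Pic0 Qbar (jField Qbar N) :=
    { toFun := fun φ => c φ.toMul
      map_zero' := (hc (Additive.toMul (0 : Additive M))).class_unique hn (isKummer_one n)
      map_add' := fun φ ψ => (hc (Additive.toMul (φ + ψ))).class_unique hn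
        ((hc φ.toMul).mul (hc ψ.toMul)) }
  refine ⟨cls, (injective_iff_map_eq_zero cls).2 fun φ h0 => ?_, fun σ φ => ?_, hc⟩
  · have h : IsKummer n ((φ.toMul : parGroup (Gamma0 N) n) : Gamma0 N →* ℂˣ) 0 := by
      have h1 := hc φ.toMul
      rwa [show c φ.toMul = 0 from h0] at h1
    exact Additive.toMul.injective (Subtype.ext (Subtype.ext (h.eq_one hn)))
  · exact (hc _).class_unique hn
      (exists_isKummer_galois hn (φ : parGroup (Gamma0 N) n) (hM φ φ.2) σ (g σ) (hg σ) (hc φ))

/-- The same for a field `E` equal to the function field of `X₀(N)`. -/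
theorem exists_hom_of_eq (n : ℕ) [NeZero n] (M : Subgroup (parGroup (Gamma0 N) n))
    (hM : ∀ φ ∈ M, ∀ δ : Gamma0 N, IsOfFinOrder δ → (φ : Gamma0 N →* ℂˣ) δ = 1)
    (hgal : ∀ (σ : GQ), ∀ φ ∈ M, galChar (ES.goodLevel_Gamma0 N) n σ φ ∈ M)
    (E : IntermediateField Qbar (LaurentSeries Qbar)) (hE : E = jField Qbar N)
    (g : GQ → SemilinearAut Qbar E)
    (hg : ∀ σ (x : E), ((g σ • x : E) : LaurentSeries Qbar) =
      coeffMap (σ : Qbar →+* Qbar) (x : LaurentSeries Qbar)) :
    ∃ cls : Additive M →+ Pic0 Qbar E, Function.Injective cls ∧ ∀ (σ : GQ) (φ : M),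
      cls (Additive.ofMul ⟨_, hgal σ φ φ.2⟩) = g σ • cls (Additive.ofMul φ) := by
  subst hE
  obtain ⟨cls, h1, h2, -⟩ := exists_hom_isKummer n M hM hgal g hg
  exact ⟨cls, h1, h2⟩

/-- **Unramified characters in `J₀(N)`.** A Galois stable group of characters of `Γ₀(N)` of
exponent `n`, trivial on parabolic and elliptic elements, embeds Galois equivariantly in `J₀(N)`. -/
theorem exists_hom_jZero (n : ℕ) [NeZero n] (M : Subgroup (parGroup (Gamma0 N) n))
    (hM : ∀ φ ∈ M, ∀ δ : Gamma0 N, IsOfFinOrder δ → (φ : Gamma0 N →* ℂˣ) δ = 1)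
    (hgal : ∀ (σ : GQ), ∀ φ ∈ M, galChar (ES.goodLevel_Gamma0 N) n σ φ ∈ M) :
    ∃ cls : Additive M →+ ModularCurve.JZero N, Function.Injective cls ∧ ∀ (σ : GQ) (φ : M),
      cls (Additive.ofMul ⟨_, hgal σ φ φ.2⟩) = σ • cls (Additive.ofMul φ) :=
  exists_hom_of_eq n M hM hgal _ (modularFunctionFieldBar_eq_jField N)
    (fun σ => ModularCurve.arithmeticGalois (ModularCurve.modularFunctionFieldFull N) σ)
    fun σ x => ModularCurve.coe_arithmeticGalois_smul _ σ x

end FermatAgent.Flat.Kummer
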