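import Fermat.Agent.Flat.Kummer.Rel
import Fermat.Agent.ES.Forms.GalChar
import Fermat.Agent.ES.Cong.Normalize
import Fermat.Agent.Curve.Red.LevelN

/-!
# The class of an everywhere unramified multiplier

A character `φ` of `Γ₀(N)` of exponent `n`, trivial on parabolic and elliptic elements, has a
non-zero form `w` of weight twelve with that multiplier and algebraic coefficients. The `n`-th power
of `w / Δ` is a function on `X₀(N)` over `ℚ̄` with divisor divisible by `n` at every place: the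
rotation about each point fixes the root. So `φ` comes from an `n`-torsion class.
-/

set_option autoImplicit false

noncomputable section

open UpperHalfPlane hiding I
open Filter Topology AlgebraicCurve ModularGroup
open scoped MatrixGroups Manifold ModularForm
open CongruenceSubgroup (Gamma0)
open FermatAgent.Curve FermatAgent.GaloisBasic FermatAgent.Mazur
open FermatAgent.ES (act act_one act_mulFun parGroup IsParChar IsTwist HasExp exists_algebraic_form
  mul_ne_zero_of_mdiff exists_embC_eq embC)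
open ModularCurve (qExpand qExpand_coeff_mul)

namespace FermatAgent.Flat.Kummer

attribute [local instance] Mazur.embAlg

local notation "Δ" => ModularForm.discriminant

/-- The value at `γ τ` through the slash operator. -/
theorem apply_smul_eq_slash (f : ℍ → ℂ) (k : ℤ) (γ : SL(2, ℤ)) (τ : ℍ) :
    f (γ • τ) = denom γ τ ^ k * (f ∣[k] γ) τ := by
  rw [ModularForm.SL_slash_apply, zpow_neg]
  field_simp [zpow_ne_zero k (denom_ne_zero (γ : GL (Fin 2) ℝ) τ)]

/-- A series with algebraic coefficients comes from one over `ℚ̄`. -/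
theorem exists_map_eq {S : LaurentSeries ℂ} (h : ∀ j, ∃ a : Qbar, algebraMap Qbar ℂ a = S.coeff j) :
    ∃ s : LaurentSeries Qbar, lsC s = S := by
  classical
  let pre : ℂ → Qbar := fun y => if hy : ∃ a : Qbar, algebraMap Qbar ℂ a = y then hy.choose else 0
  have hp : ∀ y, (∃ a : Qbar, algebraMap Qbar ℂ a = y) → algebraMap Qbar ℂ (pre y) = y :=
    fun y hy => by simp only [pre, dif_pos hy]; exact hy.choose_spec
  have h0 : pre 0 = 0 := (algebraMap Qbar ℂ).injective
    ((hp 0 ⟨0, map_zero _⟩).trans (map_zero _).symm)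
  refine ⟨⟨fun j => pre (S.coeff j), S.isPWO_support.mono fun j hj hS => hj ?_⟩, ?_⟩
  · show pre (S.coeff j) = 0
    rw [hS, h0]
  · ext j
    rw [ModularCurve.coeffMap_coeff]
    exact hp _ (h j)

/-- The quotient `w / Δ` of a form of weight twelve by the discriminant. -/
def kumRoot (w : ℍ → ℂ) : ℍ → ℂ := fun τ => w τ / Δ τ

variable {Γ : Subgroup SL(2, ℤ)} {φ : Γ →* ℂˣ} {w : ℍ → ℂ}

theorem kumRoot_smul (k : SL(2, ℤ)) (τ : ℍ) :
    kumRoot w (k • τ) = (w ∣[(12 : ℤ)] k) τ / Δ τ := by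
  rw [kumRoot, apply_smul_eq_slash w 12, smul_eq_denom_zpow (slash_discriminant k)]
  exact mul_div_mul_left _ _ (zpow_ne_zero _ (denom_ne_zero _ _))

theorem kumRoot_mult (hw : IsTwist Γ 12 φ w) (γ : Γ) (τ : ℍ) :
    kumRoot w ((γ : SL(2, ℤ)) • τ) = φ γ * kumRoot w τ := by
  rw [kumRoot_smul, hw.slash γ, kumRoot, mul_div_assoc]

theorem mdiff_kumRoot (hw : IsTwist Γ 12 φ w) : MDiff (kumRoot w) :=
  MDifferentiable.div hw.mdiff mdiff_discriminant ModularForm.discriminant_ne_zero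

theorem act_kumRoot_mem (hw : IsTwist Γ 12 φ w) (k : SL(2, ℤ)) :
    act k (kumRoot w) ∈ regSub := by
  refine ⟨PSEMI.mdiff_act (mdiff_kumRoot hw) k, 1, ?_⟩
  have h2 := Asymptotics.IsBigO.mul (hw.bdd k) isBoundedAtImInfty_qw_div_discriminant
  refine (h2.congr_left fun τ => ?_).congr_right fun τ => by norm_num
  show _ = qw 1 τ ^ 1 * kumRoot w (k • τ)
  rw [kumRoot_smul]
  ring

theorem kumRoot_ne_zero (h : w ≠ 0) : kumRoot w ≠ 0 := fun h0 => h (funext fun τ => by
  have := congrFun h0 τ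
  rwa [kumRoot, Pi.zero_apply, div_eq_zero_iff,
    or_iff_left (ModularForm.discriminant_ne_zero τ)] at this)

/-- The `n`-th power of the root is invariant. -/
theorem kumRoot_invariant {n : ℕ} (hw : IsTwist Γ 12 φ w) (hn : φ ^ n = 1) :
    ∀ γ ∈ Γ, ∀ τ, (kumRoot w ^ n) (γ • τ) = (kumRoot w ^ n) τ := fun γ hγ τ => by
  rw [Pi.pow_apply, Pi.pow_apply, kumRoot_mult hw ⟨γ, hγ⟩, mul_pow, ← Units.val_pow_eq_pow_val,
    ← MonoidHom.pow_apply, hn, MonoidHom.one_apply, Units.val_one, one_mul]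

/-- The translates of the `n`-th power are meromorphic at the cusps. -/
theorem act_kumRoot_pow_mem (hw : IsTwist Γ 12 φ w) (n : ℕ) (k : SL(2, ℤ)) :
    act k (kumRoot w ^ n) ∈ regSub :=
  pow_mem (act_kumRoot_mem hw k) n

variable {N : ℕ} [NeZero N]

/-- The expansion of `Δ` at `∞`. -/
theorem hasLoc_discriminant : HasLoc (qw 1) (Δ : ℍ → ℂ)
    (HahnSeries.ofPowerSeries ℤ ℂ
      (PowerSeries.X * ModularCurve.dedekindEtaUnit.map (Int.castRingHom ℂ))) := by
  have hper : ∀ τ : ℍ, (Δ : ℍ → ℂ) ((1 : ℝ) +ᵥ τ) = Δ τ := fun τ => by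
    rw [← modular_T_smul, smul_eq_denom_zpow (slash_discriminant T), ModularGroup.denom_apply]
    simp [ModularGroup.coe_T]
  have h := hasLoc_qParam (f := (Δ : ℍ → ℂ)) one_pos 0
    (by simpa using periodic_comp_ofComplex_of_vadd hper)
    (by simpa using mdiff_discriminant)
    (by simpa [CuspForm.coe_discriminant] using
      ModularFormClass.bdd_at_infty CuspForm.discriminant)
  simp only [Nat.cast_zero, neg_zero, pow_zero, one_mul, HahnSeries.single_zero_one] at h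
  rwa [qExpansion_discriminant] at h

/-- The expansion of `Δ` at level `M`. -/
def deltaSer (M : ℕ) [NeZero M] : LaurentSeries ℂ :=
  qExpand ℂ M (HahnSeries.ofPowerSeries ℤ ℂ
    (PowerSeries.X * ModularCurve.dedekindEtaUnit.map (Int.castRingHom ℂ)))

/-- The expansion of `Δ` is nonzero. -/
theorem deltaSer_ne_zero (M : ℕ) [NeZero M] : deltaSer M ≠ 0 := fun h0 => by
  have h := HasLoc.spread (w := M) hasLoc_discriminant
  rw [← deltaSer, h0] at h
  exact ModularForm.discriminant_ne_zero UpperHalfPlane.I (congrFun (HasLoc.eq_zero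
    (locCoord_qw (Nat.cast_pos.2 (Nat.pos_of_ne_zero (NeZero.ne M)))) h) UpperHalfPlane.I)

/-- The expansion of a power of the quotient. -/
theorem kumRoot_series {M : ℕ} [NeZero M] (n : ℕ) {cw : PowerSeries ℂ} (hc : HasExp M w cw)
    {S : LaurentSeries ℂ} (hS : HasLoc (qw 1) (kumRoot w ^ n) S) :
    qExpand ℂ M S * deltaSer M ^ n = HahnSeries.ofPowerSeries ℤ ℂ cw ^ n := by
  have hvloc : HasLoc (qw (M : ℝ)) w (HahnSeries.ofPowerSeries ℤ ℂ cw) :=
    Red.hasLoc_of_hasLExp ⟨0, cw, hc.congr_fun fun τ => by rw [pow_zero, one_mul], by simp⟩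
  have hprod := (HasLoc.spread (w := M) hS).mul ((HasLoc.spread (w := M) hasLoc_discriminant).pow n)
  have e : (kumRoot w ^ n) * (Δ : ℍ → ℂ) ^ n = w ^ n := funext fun τ => by
    simp only [Pi.mul_apply, Pi.pow_apply, kumRoot, ← mul_pow]
    rw [div_mul_cancel₀ _ (ModularForm.discriminant_ne_zero τ)]
  rw [e] at hprod
  exact hprod.unique (locCoord_qw (Nat.cast_pos.2 (Nat.pos_of_ne_zero (NeZero.ne M)))) (hvloc.pow n)

/-- A power series with algebraic coefficients comes from `ℚ̄`. -/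
theorem ofPowerSeries_mem_range {d : PowerSeries ℂ}
    (hd : ∀ e, IsAlgebraic ℚ (PowerSeries.coeff e d)) :
    HahnSeries.ofPowerSeries ℤ ℂ d ∈
      (lsC : LaurentSeries Qbar →+* LaurentSeries ℂ).fieldRange := by
  refine exists_map_eq fun j => ?_
  rcases lt_or_ge j 0 with hj | hj
  · refine ⟨0, ?_⟩
    rw [map_zero, HahnSeries.ofPowerSeries_apply, HahnSeries.embDomain_of_notMem_range]
    rintro ⟨i, hi⟩
    simp at hi
    omega
  · obtain ⟨i, rfl⟩ := Int.eq_ofNat_of_zero_le hj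
    rw [HahnSeries.ofPowerSeries_apply_coeff]
    exact exists_embC_eq (hd i)

/-- The expansion of a power of the quotient has algebraic coefficients. -/
theorem exists_series {M : ℕ} [NeZero M] (n : ℕ) {cw : PowerSeries ℂ} (hc : HasExp M w cw)
    (hK : HahnSeries.ofPowerSeries ℤ ℂ cw ∈
      (lsC : LaurentSeries Qbar →+* LaurentSeries ℂ).fieldRange)
    {S : LaurentSeries ℂ} (hS : HasLoc (qw 1) (kumRoot w ^ n) S) :
    ∃ s : LaurentSeries Qbar, lsC s = S := by
  set K := (lsC : LaurentSeries Qbar →+* LaurentSeries ℂ).fieldRange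
  have hΔK : deltaSer M ∈ K := by
    refine exists_map_eq fun j => ?_
    by_cases hj : (M : ℤ) ∣ j
    · obtain ⟨i, rfl⟩ := hj
      rw [deltaSer, qExpand_coeff_mul]
      rcases lt_or_ge i 0 with hi | hi
      · refine ⟨0, ?_⟩
        rw [map_zero, HahnSeries.ofPowerSeries_apply, HahnSeries.embDomain_of_notMem_range]
        rintro ⟨l, hl⟩
        simp at hl
        omega
      · obtain ⟨l, rfl⟩ := Int.eq_ofNat_of_zero_le hi
        rw [HahnSeries.ofPowerSeries_apply_coeff]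
        cases l with
        | zero => exact ⟨0, by simp⟩
        | succ l =>
          rw [PowerSeries.coeff_succ_X_mul, PowerSeries.coeff_map]
          exact ⟨_, map_intCast (algebraMap Qbar ℂ) _⟩
    · exact ⟨0, by rw [deltaSer, ModularCurve.qExpand_coeff_of_not_dvd M _ hj, map_zero]⟩
  have hSK : qExpand ℂ M S ∈ K := by
    rw [(eq_div_iff (pow_ne_zero n (deltaSer_ne_zero M))).2 (kumRoot_series n hc hS)]
    exact div_mem (pow_mem hK n) (pow_mem hΔK n)
  obtain ⟨u, hu⟩ := hSK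
  refine exists_map_eq fun j => ⟨u.coeff (M * j), ?_⟩
  rw [← qExpand_coeff_mul M S j, ← hu, ModularCurve.coeffMap_coeff]

section Divisible

variable {K F : Type*} [Field K] [IsAlgClosed K] [Field F] [Algebra K F] [IsFF K F]
  [Algebra K ℂ] {x : F} {ι : Type*} [Fintype ι]

/-- Orders of functions with an `n`-th root fixed by the rotation are divisible by `n`. -/
theorem dvd_ord_of_rotation {E : EmbeddingFamily (K := K) x ι ℂ} (R : E.Rotation) (i : ι) {n : ℕ}
    {S : LaurentSeries ℂ} {f : F} (hS : E.σ i f = S ^ n)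
    (hrot : rotate (pow_ne_zero (Function.minimalPeriod R.r i) (R.prim.ne_zero E.m_pos.ne')) S = S)
    (hS0 : S ≠ 0) : (n : ℤ) ∣ (E.place i).ord f := by
  classical
  have : Nonempty ι := ⟨i⟩
  set p := Function.minimalPeriod R.r i
  have hppos : 0 < p :=
    Function.minimalPeriod_pos_of_mem_periodicPts (R.r.injective.mem_periodicPts i)
  set P := E.place i
  have hfib : (Finset.univ.filter fun j => E.place j = P) =
      (Finset.range p).image fun l => (R.r ^ l) i := by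
    ext j
    simp only [Finset.mem_filter, Finset.mem_univ, true_and, Finset.mem_image, Finset.mem_range]
    constructor
    · intro hj
      obtain ⟨l, -, hl⟩ := (R.sameCycle_of_place_eq hj.symm).exists_pow_eq' (f := R.r)
      refine ⟨l % p, Nat.mod_lt _ hppos, ?_⟩
      rw [← hl, Equiv.Perm.coe_pow, Equiv.Perm.coe_pow, Function.iterate_mod_minimalPeriod_eq]
    · rintro ⟨l, -, rfl⟩
      exact (R.place_eq_of_sameCycle (i := i) ⟨(l : ℤ), rfl⟩).symm
  have hord : (p : ℤ) = P.ord x := by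
    rw [← E.count.2 P (E.ord_place_pos i), hfib, Finset.card_image_of_injOn, Finset.card_range]
    intro a ha b hb hab
    simp only [Equiv.Perm.coe_pow] at hab
    exact Function.iterate_injOn_Iio_minimalPeriod (by simpa using ha) (by simpa using hb) hab
  obtain ⟨t, -, ht⟩ := exists_ord_eq_one P
  set k := (E.σ i t).order
  have hkpos : 0 < k := order_uniformizer_pos (E.σ i) (E.order_pos i) ht
  have hxk : (E.m : ℤ) = k * p := by
    have := order_apply (E.σ i) (E.order_pos i) ht x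
    rw [E.σ_x, E.order_h] at this
    rw [hord]
    exact this
  have hone : R.ζ ^ ((p : ℤ) * S.order) = 1 := by
    have hc := congrArg (fun f => HahnSeries.coeff f S.order) hrot
    simp only [coeff_rotate] at hc
    rw [zpow_mul, zpow_natCast]
    exact mul_right_cancel₀ (b := S.coeff S.order)
      (by rwa [Ne, HahnSeries.coeff_order_eq_zero]) (hc.trans (one_mul _).symm)
  have hdvd := (R.prim.zpow_eq_one_iff_dvd _).1 hone
  rw [hxk, mul_comm k, mul_dvd_mul_iff_left (by exact_mod_cast hppos.ne')] at hdvd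
  obtain ⟨l, hl⟩ := hdvd
  have hf := order_apply (E.σ i) (E.order_pos i) ht f
  rw [hS, HahnSeries.order_pow, nsmul_eq_mul, hl, mul_left_comm] at hf
  exact ⟨l, (mul_left_cancel₀ hkpos.ne' hf).symm⟩

end Divisible

theorem pow_smul_discCoord {t : ℍ → ℂ} {γ : SL(2, ℤ)} {ζ : ℂ} (h : ∀ τ, t (γ • τ) = ζ * t τ)
    (p : ℕ) (τ : ℍ) : t (γ ^ p • τ) = ζ ^ p * t τ := by
  induction p generalizing τ with
  | zero => simp
  | succ p ih => rw [pow_succ, mul_smul, ih, h, pow_succ]; ring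

omit [NeZero N] in
/-- The root at an embedding is fixed by the stabiliser of the coset. -/
theorem exists_root_series {t : ℍ → ℂ} (hc : GenCoord N t) {φ : Gamma0 N →* ℂˣ} {g : ℍ → ℂ}
    (hg0 : g ≠ 0) (hm : ∀ δ : Gamma0 N, ∀ τ, g ((δ : SL(2, ℤ)) • τ) = φ δ * g τ)
    {n : ℕ} {f : jField Qbar N} (hl : HasLoc (qw 1) (g ^ n) (lsC (f : LaurentSeries Qbar)))
    (x : SL(2, ℤ) ⧸ Gamma0 N) {S : LaurentSeries ℂ} (hS : HasLoc t (act (x.out)⁻¹ g) S)
    {γ : SL(2, ℤ)} {ζ : ℂ} (hζ : ‖ζ‖ = 1) (hζ0 : ζ ≠ 0) (hγ : ∀ τ, t (γ • τ) = ζ * t τ)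
    {p : ℕ} (hp : γ ^ p • x = x)
    (hφ : ∀ δ : Gamma0 N, (δ : SL(2, ℤ)) = (x.out)⁻¹ * γ ^ p * x.out → φ δ = 1) :
    cosetEmb (K := Qbar) hc x f = S ^ n ∧ rotate (pow_ne_zero p hζ0) S = S ∧ S ≠ 0 := by
  set k := (x.out)⁻¹
  have hS0 : S ≠ 0 := fun h0 => hg0 (funext fun τ => by
    have h := congrFun (HasLoc.eq_zero hc.coord (h0 ▸ hS)) (k⁻¹ • τ)
    rw [ES.act_apply, smul_inv_smul] at h
    exact h)
  refine ⟨?_, ?_, hS0⟩
  · exact emb_eq_of_hasLoc hl hc k (hS.pow n)
  · have h2 := hS.pullback (t' := t) (fun τ => γ ^ p • τ) (by rw [norm_pow, hζ, one_pow])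
      (pow_ne_zero p hζ0) 1 (fun τ => by rw [pow_one]; exact pow_smul_discCoord hγ p τ)
    rw [ModularCurve.qExpand_one_apply] at h2
    refine (h2.congr_fun fun τ => ?_).unique hc.coord hS
    have hmem : k * γ ^ p * x.out ∈ Gamma0 N := by
      have hx : QuotientGroup.mk (γ ^ p * x.out) = x := by
        conv_rhs => rw [← hp, ← QuotientGroup.out_eq' x]
        rfl
      rw [mul_assoc]
      exact QuotientGroup.eq.1 ((QuotientGroup.out_eq' x).trans hx.symm)
    have h := hm ⟨_, hmem⟩ (k • τ)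
    rw [hφ ⟨_, hmem⟩ rfl, Units.val_one, one_mul, ← mul_smul,
      show k * γ ^ p * x.out * k = k * γ ^ p by rw [mul_assoc _ x.out, mul_inv_cancel, mul_one],
      mul_smul] at h
    exact h.symm

section DvdOrd

variable {φ : Gamma0 N →* ℂˣ} {g : ℍ → ℂ} {n : ℕ} {f : jField Qbar N}

omit [NeZero N] in
/-- Translations by `N` fix the translates of a function with parabolic multiplier. -/
private theorem act_periodic
    (hm : ∀ δ : Gamma0 N, ∀ τ, g ((δ : SL(2, ℤ)) • τ) = φ δ * g τ)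
    (hpar : IsParChar (Gamma0 N) φ) (k : SL(2, ℤ)) (τ : ℍ) :
    act k g ((N : ℝ) +ᵥ τ) = act k g τ := by
  have hTN : k * (T : SL(2, ℤ)) ^ N * k⁻¹ ∈ Gamma0 N := by
    refine (ES.goodLevel_Gamma0 N).gamma_le ?_
    refine (CongruenceSubgroup.Gamma_normal N).conj_mem _ ?_ k
    rw [CongruenceSubgroup.Gamma_mem, ES.T_pow_coe]; simp
  have h := hm ⟨_, hTN⟩ (k • τ)
  rw [hpar ⟨_, hTN⟩ ?_, Units.val_one, one_mul, ← mul_smul, inv_mul_cancel_right,
    mul_smul] at h
  · rw [show ((N : ℝ) +ᵥ τ) = (T : SL(2, ℤ)) ^ N • τ from ?_]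
    · exact h
    · rw [← zpow_natCast, modular_T_zpow_smul]; simp
  · show ((k * (T : SL(2, ℤ)) ^ N * k⁻¹ : SL(2, ℤ)) : Matrix (Fin 2) (Fin 2) ℤ).trace ^ 2 = 4
    rw [Matrix.SpecialLinearGroup.coe_mul, Matrix.SpecialLinearGroup.coe_mul,
      Matrix.trace_mul_cycle, ← Matrix.SpecialLinearGroup.coe_mul, inv_mul_cancel,
      Matrix.SpecialLinearGroup.coe_one, one_mul, ES.T_pow_coe, Matrix.trace_fin_two]
    simp

/-- At a point of finite `j` the order of `f` is divisible by `n`, elliptic elements acting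
trivially. -/
private theorem dvd_ord_disc (hfin : ∀ δ : Gamma0 N, IsOfFinOrder δ → φ δ = 1) (hg : MDiff g)
    (hg0 : g ≠ 0) (hm : ∀ δ : Gamma0 N, ∀ τ, g ((δ : SL(2, ℤ)) • τ) = φ δ * g τ)
    (hl : HasLoc (qw 1) (g ^ n) (lsC (f : LaurentSeries Qbar))) (τ₀ : ℍ) (a : Qbar) (m : ℕ)
    (hm' : 0 < m) (ho : (jSubSeries τ₀ (algebraMap Qbar ℂ a)).order = m) (γ : SL(2, ℤ)) {ζ : ℂ}
    (hprim : IsPrimitiveRoot ζ m) (hγ : ∀ τ, discCoord τ₀ (γ • τ) = ζ * discCoord τ₀ τ)
    (hγfin : IsOfFinOrder γ) (P : Place Qbar (jField Qbar N))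
    (hP : 0 < P.ord (jElt Qbar N - algebraMap Qbar _ a)) : (n : ℤ) ∣ P.ord f := by
  have : Nonempty (SL(2, ℤ) ⧸ Gamma0 N) := ⟨QuotientGroup.mk 1⟩
  obtain ⟨x, rfl⟩ := (familyAt Qbar N τ₀ a m hm' ho).exists_place_eq P hP
  set R := rotationAt Qbar N τ₀ a m hm' ho γ hprim hγ
  set p := Function.minimalPeriod R.r x
  obtain ⟨h1, h2, h3⟩ := exists_root_series (genCoord_discCoord N τ₀) hg0 hm hl x
    (S := HahnSeries.ofPowerSeries ℤ ℂ (taylorPS (discFun τ₀ (act (x.out)⁻¹ g))))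
    (hasLoc_discCoord τ₀ (PSEMI.mdiff_act hg _)) (hprim.norm'_eq_one hm'.ne')
    (hprim.ne_zero hm'.ne') hγ (p := p)
    (by
      have hx : (cosetPerm N γ)^[p] x = x := Function.iterate_minimalPeriod
      rw [← Equiv.Perm.coe_pow, cosetPerm, ← map_pow, inv_pow] at hx
      exact (inv_smul_eq_iff.1 hx).symm)
    (fun δ hδ => hfin δ (Submonoid.isOfFinOrder_coe.1 (by
      rw [hδ]
      obtain ⟨o, ho', hoe⟩ := isOfFinOrder_iff_pow_eq_one.1 hγfin.pow
      refine isOfFinOrder_iff_pow_eq_one.2 ⟨o, ho', ?_⟩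
      have e := conj_pow (a := (x.out)⁻¹) (b := γ ^ p) (i := o)
      rw [inv_inv] at e
      rw [e, hoe, mul_one, inv_mul_cancel])))
  exact dvd_ord_of_rotation R x h1 h2 h3

/-- At a cusp the order of `f` is divisible by `n`, parabolic elements acting trivially. -/
private theorem dvd_ord_cusp (hpar : IsParChar (Gamma0 N) φ) (hreg : ∀ k, act k g ∈ regSub)
    (hg0 : g ≠ 0) (hm : ∀ δ : Gamma0 N, ∀ τ, g ((δ : SL(2, ℤ)) • τ) = φ δ * g τ)
    (hl : HasLoc (qw 1) (g ^ n) (lsC (f : LaurentSeries Qbar))) (P : Place Qbar (jField Qbar N))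
    (hneg : P.ord (jElt Qbar N) < 0) : (n : ℤ) ∣ P.ord f := by
  have : Nonempty (SL(2, ℤ) ⧸ Gamma0 N) := ⟨QuotientGroup.mk 1⟩
  obtain ⟨x, rfl⟩ := (familyInfty Qbar N).exists_place_eq P (by rw [Place.ord_inv]; omega)
  set R := rotationInfty Qbar N
  set p := Function.minimalPeriod R.r x
  set k := (x.out)⁻¹
  obtain ⟨hkd, B, hB⟩ := hreg k
  have hperG := act_periodic hm hpar k
  have hN0 : (0 : ℝ) < N := Nat.cast_pos.2 (Nat.pos_of_ne_zero (NeZero.ne N))
  have hB' : IsBoundedAtImInfty fun τ => qw (N : ℝ) τ ^ (N * B) * act k g τ := by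
    simp only [pow_mul, ← qw_eq_pow]
    exact hB
  have hSx := hasLoc_qParam (f := act k g) hN0 (N * B)
    (periodic_comp_ofComplex_of_vadd fun τ => by
      show qw (N : ℝ) _ ^ (N * B) * act k g _ = qw (N : ℝ) τ ^ (N * B) * act k g τ
      rw [hperG, pow_mul, pow_mul, ← qw_eq_pow, ← qw_eq_pow,
        show qw 1 ((N : ℝ) +ᵥ τ) = qw 1 τ from ?_]
      simp only [qw, UpperHalfPlane.coe_vadd, Function.Periodic.qParam]
      rw [show 2 * Real.pi * Complex.I * (((N : ℝ) : ℂ) + τ) / ((1 : ℝ) : ℂ) =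
        2 * Real.pi * Complex.I * τ / ((1 : ℝ) : ℂ) +
          ((N : ℤ) : ℂ) * (2 * Real.pi * Complex.I) by
          push_cast; ring, Complex.exp_add, Complex.exp_int_mul_two_pi_mul_I, mul_one])
    (((mdiff_qw (N : ℝ)).pow (N * B)).mul hkd) hB'
  obtain ⟨h1, h2, h3⟩ := exists_root_series (genCoord_qw N) hg0 hm hl x hSx
    (R.prim.norm'_eq_one (NeZero.ne N)) (R.prim.ne_zero (NeZero.ne N)) (qw_T_smul N) (p := p)
    (by
      have hx : (cosetPerm N T)^[p] x = x := Function.iterate_minimalPeriod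
      rw [← Equiv.Perm.coe_pow, cosetPerm, ← map_pow, inv_pow] at hx
      exact (inv_smul_eq_iff.1 hx).symm)
    (fun δ hδ => hpar δ (by
      rw [hδ, Matrix.SpecialLinearGroup.coe_mul, Matrix.SpecialLinearGroup.coe_mul,
        Matrix.trace_mul_cycle, ← Matrix.SpecialLinearGroup.coe_mul, mul_inv_cancel,
        Matrix.SpecialLinearGroup.coe_one, one_mul, ES.T_pow_coe, Matrix.trace_fin_two]
      simp))
  exact dvd_ord_of_rotation R x h1 h2 h3

/-- The divisor of an `n`th power of a function with parabolic and elliptic-trivial multiplier is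
divisible by `n`. -/
private theorem dvd_ord_of_isPow (hpar : IsParChar (Gamma0 N) φ)
    (hfin : ∀ δ : Gamma0 N, IsOfFinOrder δ → φ δ = 1) (hg : MDiff g) (hreg : ∀ k, act k g ∈ regSub)
    (hg0 : g ≠ 0) (hm : ∀ δ : Gamma0 N, ∀ τ, g ((δ : SL(2, ℤ)) • τ) = φ δ * g τ)
    (hl : HasLoc (qw 1) (g ^ n) (lsC (f : LaurentSeries Qbar))) (P : Place Qbar (jField Qbar N)) :
    (n : ℤ) ∣ P.ord f := by
  rcases lt_or_ge (P.ord (jElt Qbar N)) 0 with hneg | hpos
  · exact dvd_ord_cusp hpar hreg hg0 hm hl P hneg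
  · obtain ⟨a, ha'⟩ := exists_sub_algebraMap (v := P) (f := jElt Qbar N) (Or.inr hpos)
    have hne : jElt Qbar N - algebraMap Qbar _ a ≠ 0 := fun h0 =>
      transcendental_jElt (K := Qbar) (N := N) (by
        rw [sub_eq_zero.1 h0]; exact isAlgebraic_algebraMap _)
    have hP : 0 < P.ord (jElt Qbar N - algebraMap Qbar _ a) := by
      have := (ordGE_iff_le hne).1 ha'; omega
    by_cases h0 : a = 0
    · subst h0
      exact dvd_ord_disc hfin hg hg0 hm hl rhoPt 0 3 (by norm_num) (jSubSeries_zero_order Qbar)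
        (S * T) isPrimitiveRoot_rhoPt discCoord_S_T_smul
        (isOfFinOrder_iff_pow_eq_one.2 ⟨6, by norm_num, by decide⟩) P hP
    by_cases h1728 : a = 1728
    · subst h1728
      exact dvd_ord_disc hfin hg hg0 hm hl UpperHalfPlane.I 1728 2 two_pos
        (jSubSeries_1728_order Qbar) S (IsPrimitiveRoot.neg_one 0 (by norm_num)) discCoord_S_smul
        (isOfFinOrder_iff_pow_eq_one.2 ⟨4, by norm_num, by decide⟩) P hP
    obtain ⟨τ₀, hτ₀⟩ := exists_jFun_eq (algebraMap Qbar ℂ a)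
    have ho : (jSubSeries τ₀ (algebraMap Qbar ℂ a)).order = ((1 : ℕ) : ℤ) := by
      rw [Nat.cast_one]
      refine order_jSubSeries_generic hτ₀ ((_root_.map_ne_zero _).2 h0) fun h => h1728 ?_
      exact (algebraMap Qbar ℂ).injective (h.trans (map_ofNat _ _).symm)
    exact dvd_ord_disc hfin hg hg0 hm hl τ₀ a 1 one_pos ho 1 IsPrimitiveRoot.one
      (fun τ => by rw [one_smul, one_mul]) IsOfFinOrder.one P hP

end DvdOrd

/-- Characters killing parabolic and elliptic elements come from torsion classes, through a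
form of weight twelve with that multiplier and algebraic coefficients. -/
theorem exists_isKummer_form {n : ℕ} (hn : 0 < n) (φ : parGroup (Gamma0 N) n)
    (hfin : ∀ δ : Gamma0 N, IsOfFinOrder δ → (φ : Gamma0 N →* ℂˣ) δ = 1) :
    ∃ (w : ℍ → ℂ) (cw : PowerSeries ℂ) (D : Divisor.degZero (K := Qbar) (F := jField Qbar N))
      (f : jField Qbar N), IsTwist (Gamma0 N) 12 (φ : Gamma0 N →* ℂˣ) w ∧ w ≠ 0 ∧
      HasExp (12 * N) w cw ∧ f ≠ 0 ∧
      divisorOf f = n • (D : Divisor Qbar (jField Qbar N)) ∧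
      HasLoc (qw 1) (kumRoot w ^ n) (lsC (f : LaurentSeries Qbar)) := by
  classical
  have : NeZero n := ⟨hn.ne'⟩
  have hG : ES.GoodLevel N (Gamma0 N) := ES.goodLevel_Gamma0 N
  obtain ⟨v, c, hv, hv0, hc, ha⟩ := exists_algebraic_form hG φ
  obtain ⟨v₁, c₁, hv₁, hv₁0, hc₁, ha₁⟩ := exists_algebraic_form hG (1 : parGroup (Gamma0 N) n)
  rw [OneMemClass.coe_one] at hv₁
  have hw : IsTwist (Gamma0 N) 12 (φ : Gamma0 N →* ℂˣ) (v * (v₁ * v₁)) := by
    have h := hv.mul (hv₁.mul hv₁)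
    rw [mul_one (1 : Gamma0 N →* ℂˣ), mul_one (φ : Gamma0 N →* ℂˣ)] at h
    exact h
  have hwc : HasExp (12 * N) (v * (v₁ * v₁)) (c * (c₁ * c₁)) := hc.mul (hc₁.mul hc₁)
  have hwK : HahnSeries.ofPowerSeries ℤ ℂ (c * (c₁ * c₁)) ∈
      (lsC : LaurentSeries Qbar →+* LaurentSeries ℂ).fieldRange := by
    rw [map_mul, map_mul]
    exact mul_mem (ofPowerSeries_mem_range ha)
      (mul_mem (ofPowerSeries_mem_range ha₁) (ofPowerSeries_mem_range ha₁))
  have hw0 : v * (v₁ * v₁) ≠ 0 := mul_ne_zero_of_mdiff (hv₁.mdiff.mul hv₁.mdiff) hv.mdiff hv0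
    (mul_ne_zero_of_mdiff hv₁.mdiff hv₁.mdiff hv₁0 hv₁0)
  set g := kumRoot (v * (v₁ * v₁)) with hgdef
  have hg : MDiff g := mdiff_kumRoot hw
  have hg0 : g ≠ 0 := kumRoot_ne_zero hw0
  have hm : ∀ δ : Gamma0 N, ∀ τ, g ((δ : SL(2, ℤ)) • τ) = (φ : Gamma0 N →* ℂˣ) δ * g τ :=
    kumRoot_mult hw
  have hinv : ∀ γ ∈ Gamma0 N, ∀ τ, (g ^ n) (γ • τ) = (g ^ n) τ := kumRoot_invariant hw φ.2.1
  have hreg : ∀ k, act k (g ^ n) ∈ regSub := act_kumRoot_pow_mem hw n
  obtain ⟨S, hS⟩ := exists_hasLoc_of_invariant hinv (act_one (g ^ n) ▸ hreg 1)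
  obtain ⟨s, rfl⟩ := exists_series n hwc hwK hS
  have hsF : s ∈ jField Qbar N := mem_jField_of_invariant hinv hreg hS
  set f : jField Qbar N := ⟨s, hsF⟩
  have hl : HasLoc (qw 1) (g ^ n) (lsC (f : LaurentSeries Qbar)) := hS
  have hf : f ≠ 0 := fun h0 => by
    rw [h0, ZeroMemClass.coe_zero, map_zero] at hl
    exact hg0 ((pow_eq_zero_iff hn.ne').1 (HasLoc.eq_zero (locCoord_qw one_pos) hl))
  have hdvd : ∀ P : Place Qbar (jField Qbar N), (n : ℤ) ∣ P.ord f :=
    dvd_ord_of_isPow φ.2.2 hfin hg (act_kumRoot_mem hw) hg0 hm hl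
  set D : Divisor Qbar (jField Qbar N) :=
    (divisorOf f : Divisor Qbar (jField Qbar N)).mapRange (fun z => z / (n : ℤ)) (Int.zero_ediv _)
  have hD : divisorOf f = n • D := Finsupp.ext fun P => by
    rw [Finsupp.smul_apply, Finsupp.mapRange_apply, nsmul_eq_mul, divisorOf_apply]
    exact (Int.mul_ediv_cancel' (hdvd P)).symm
  have hdeg : D ∈ Divisor.degZero (K := Qbar) (F := jField Qbar N) := by
    rw [Divisor.mem_degZero]
    have h := degree_divisorOf (K := Qbar) f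
    rw [hD, map_nsmul, nsmul_eq_mul, mul_eq_zero, or_iff_right (Nat.cast_ne_zero.2 hn.ne')] at h
    exact h
  exact ⟨_, _, ⟨D, hdeg⟩, f, hw, hw0, hwc, hf, hD, hl⟩

/-- The form gives the Kummer relation. -/
theorem isKummer_of_form {n : ℕ} {φ : Gamma0 N →* ℂˣ} {w : ℍ → ℂ}
    {D : Divisor.degZero (K := Qbar) (F := jField Qbar N)} {f : jField Qbar N}
    (hw : IsTwist (Gamma0 N) 12 φ w) (hw0 : w ≠ 0) (hf : f ≠ 0)
    (hD : divisorOf f = n • (D : Divisor Qbar (jField Qbar N)))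
    (hl : HasLoc (qw 1) (kumRoot w ^ n) (lsC (f : LaurentSeries Qbar))) :
    IsKummer n φ (Pic0.mk D) :=
  ⟨D, f, kumRoot w, rfl, hf, hD, mdiff_kumRoot hw, kumRoot_ne_zero hw0, kumRoot_mult hw,
    act_kumRoot_pow_mem hw n, hl⟩

/-- **Unramified characters come from torsion classes**: a character of `Γ₀(N)` of exponent `n`
trivial on parabolic and elliptic elements is the multiplier of a class. -/
theorem exists_isKummer_of_char {n : ℕ} (hn : 0 < n) (φ : parGroup (Gamma0 N) n)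
    (hfin : ∀ δ : Gamma0 N, IsOfFinOrder δ → (φ : Gamma0 N →* ℂˣ) δ = 1) :
    ∃ c : Pic0 Qbar (jField Qbar N), IsKummer n (φ : Gamma0 N →* ℂˣ) c := by
  obtain ⟨w, cw, D, f, hw, hw0, -, hf, hD, hl⟩ := exists_isKummer_form hn φ hfin
  exact ⟨_, isKummer_of_form hw hw0 hf hD hl⟩

end FermatAgent.Flat.Kummer
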