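import Fermat.Agent.Flat.Kummer.Orders
import Fermat.Agent.Mazur.ModFun
import Fermat.Agent.PSEMI.Division
import Fermat.Agent.PSEMI.Twisted

/-!
# The holomorphic function of an element of the function field of `X₀(N)`

An element of the function field is a ratio of polynomials in the `j`-functions. If its divisor is
effective away from the cusps the ratio is a holomorphic `Γ₀(N)`-invariant function on `ℍ`,
meromorphic at the cusps, with the given expansion at `∞` (`exists_fun`).
-/

set_option autoImplicit false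

noncomputable section

open UpperHalfPlane hiding I
open Filter Topology AlgebraicCurve
open scoped MatrixGroups Manifold
open CongruenceSubgroup (Gamma0)
open FermatAgent.Curve FermatAgent.GaloisBasic FermatAgent.Mazur
open FermatAgent.ES (act act_one act_mulFun vanishOrd vanishOrd_mul vanishOrd_ne_top)

namespace FermatAgent.Flat.Kummer

attribute [local instance] Mazur.embAlg

variable {N : ℕ} [NeZero N]

/-- Translates of polynomials in the `j`-functions are meromorphic at the cusps. -/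
theorem evF_act_mem_regSub (P : JPoly Qbar N) (k : SL(2, ℤ)) :
    act k (evF Qbar N P) ∈ regSub :=
  ⟨by
    induction P using MvPolynomial.induction_on with
    | C a => rw [evF, MvPolynomial.aeval_C]; exact mdifferentiable_const
    | add p q hp hq => rw [map_add]; exact hp.add hq
    | mul_X p d hp =>
      rw [map_mul, evF, MvPolynomial.aeval_X, act_mulFun]
      exact hp.mul (mdiff_jGenF_smul N d k),
  exists_bounded_of_hasLoc (hasLoc_phi (genCoord_qw N) k P)⟩

/-- Polynomials in the `j`-functions are holomorphic on `ℍ`. -/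
theorem mdiff_evF (P : JPoly Qbar N) : MDiff (evF Qbar N P) := by
  have h := (evF_act_mem_regSub P 1).1
  rwa [act_one] at h

/-- A holomorphic quotient of functions meromorphic at `∞` is meromorphic there. -/
theorem exists_bounded_quotient {w : ℕ} [NeZero w] {F u z : ℍ → ℂ} {P Q : LaurentSeries ℂ}
    (hu : HasLoc (qw (w : ℝ)) u P) (hz : HasLoc (qw (w : ℝ)) z Q) (hz0 : z ≠ 0) (he : u = F * z) :
    ∃ M : ℕ, IsBoundedAtImInfty fun τ => qw 1 τ ^ M * F τ := by
  obtain ⟨a, Gu, hGu, hue, -, -⟩ := hu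
  obtain ⟨b, Gz, hGz, hze, -, hQ⟩ := id hz
  have hc : Tendsto (fun τ : ℍ => qw w τ) atImInfty (𝓝 0) :=
    qParam_tendsto_atImInfty (by exact_mod_cast Nat.pos_of_ne_zero (NeZero.ne w))
  have htop : analyticOrderAt Gz 0 ≠ ⊤ := fun h => hz0 (by
    refine HasLoc.eq_zero ((genCoord_qw w).coord) (t := qw (w : ℝ)) ?_
    have e : taylorPS Gz = 0 := by
      rw [taylorPS_congr (H := fun _ => (0 : ℂ)) (analyticOrderAt_eq_top.mp h), taylorPS_const,
        map_zero]
    rw [e, map_zero, mul_zero] at hQ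
    exact hQ ▸ hz)
  obtain ⟨o, ho⟩ := ENat.ne_top_iff_exists.mp htop
  obtain ⟨H, hH, hH0, heq⟩ := (analyticAt_of_ball hGz).analyticOrderAt_eq_natCast.mp ho.symm
  set M := a + o
  refine ⟨M, ?_⟩
  have hlim : Tendsto (fun τ => qw w τ ^ (M * w - M + b) * (Gu (qw w τ) / H (qw w τ))) atImInfty
      (𝓝 ((0 : ℂ) ^ (M * w - M + b) * (Gu 0 / H 0))) :=
    (hc.pow _).mul ((((analyticAt_of_ball hGu).continuousAt).tendsto.comp hc).div
      ((hH.continuousAt).tendsto.comp hc) hH0)
  refine (hlim.congr' ?_).isBigO_one ℝ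
  filter_upwards [hc.eventually heq, hc.eventually (hH.continuousAt.eventually_ne hH0)] with τ h1 h2
  have hq := qw_eq_pow w τ
  have hq0 := qw_ne_zero (w : ℝ) τ
  simp only [sub_zero, smul_eq_mul] at h1
  have e1 : qw w τ ^ a * (F τ * z τ) = Gu (qw w τ) := by rw [hue, he]; rfl
  rw [hze] at h1
  rw [← e1, hq, ← pow_mul, mul_comm w M]
  have hle : M ≤ M * w := Nat.le_mul_of_pos_right M (Nat.pos_of_ne_zero (NeZero.ne w))
  rw [show qw w τ ^ (M * w) = qw w τ ^ (M * w - M) * qw w τ ^ M by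
    rw [← pow_add, Nat.sub_add_cancel hle], pow_add]
  field_simp
  linear_combination (F τ * qw w τ ^ a) * h1

section

omit [NeZero N]

/-- `T` lies in `Γ₀(N)`. -/
theorem T_mem_Gamma0 : ModularGroup.T ∈ Gamma0 N := by
  rw [CongruenceSubgroup.Gamma0_mem]; simp [ModularGroup.coe_T]

/-- Invariant functions regular at `∞` have expansions there. -/
theorem exists_hasLoc_of_invariant {F : ℍ → ℂ} (hinv : ∀ γ ∈ Gamma0 N, ∀ τ, F (γ • τ) = F τ)
    (hreg : F ∈ regSub) : ∃ S, HasLoc (qw 1) F S := by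
  obtain ⟨hF, M, hM⟩ := hreg
  refine ⟨_, hasLoc_qParam one_pos M ?_ ?_ hM⟩
  · refine periodic_comp_ofComplex_of_vadd fun τ => ?_
    show qw 1 _ ^ M * F _ = qw 1 τ ^ M * F τ
    rw [Curve.qw_vadd_one, ← modular_T_smul, hinv _ T_mem_Gamma0]
  · have h : MDiff fun τ : ℍ => qw 1 τ := by
      have := (ES.HasExp.qm_pow (M := 1) 1).mdifferentiable
      simpa [ES.qm, qw] using this
    exact (h.pow M).mul hF

/-- A function with the expansion of a ratio satisfies the relation of the ratio. -/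
theorem mul_evF_eq {F : ℍ → ℂ} {f : jField Qbar N} (hF : HasLoc (qw 1) F (lsC f))
    {P Q : JPoly Qbar N} (h : f * toJField Qbar N Q = toJField Qbar N P) :
    F * evF Qbar N Q = evF Qbar N P := by
  refine HasLoc.eq_of_same (locCoord_qw one_pos) (hF.mul (hasLoc_evF Qbar N Q)) ?_
  have e := congrArg (fun y : jField Qbar N => lsC (y : LaurentSeries Qbar)) h
  simp only [MulMemClass.coe_mul, coe_toJField, map_mul] at e
  show HasLoc (qw 1) (evF Qbar N P) (lsC (f : LaurentSeries Qbar) * lsC (evL Qbar N Q))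
  rw [e]
  exact hasLoc_evF Qbar N P

/-- A nonzero element is a ratio of polynomials with nonzero evaluations. -/
theorem exists_eq_div_ne_zero {f : jField Qbar N} (hf : f ≠ 0) : ∃ P Q : JPoly Qbar N,
    evF Qbar N P ≠ 0 ∧ evF Qbar N Q ≠ 0 ∧ f * toJField Qbar N Q = toJField Qbar N P := by
  obtain ⟨P, Q, rfl⟩ := exists_eq_div Qbar N f
  rw [div_ne_zero_iff] at hf
  refine ⟨P, Q, ?_, ?_, div_mul_cancel₀ _ hf.2⟩
  · rw [Ne, evF_eq_zero_iff, ← coe_toJField, ZeroMemClass.coe_eq_zero]
    exact hf.1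
  · rw [Ne, evF_eq_zero_iff, ← coe_toJField, ZeroMemClass.coe_eq_zero]
    exact hf.2

/-- The translate of a function has the embedded series as expansion, in any coordinate. -/
theorem emb_eq_of_hasLoc {f : jField Qbar N} {F : ℍ → ℂ}
    (hl : HasLoc (qw 1) F (lsC (f : LaurentSeries Qbar))) {t : ℍ → ℂ} (hc : GenCoord N t)
    (δ : SL(2, ℤ)) {S : LaurentSeries ℂ} (hS : HasLoc t (act δ F) S) :
    emb hc δ f = S := by
  rcases eq_or_ne f 0 with rfl | hf
  · have hF : F = 0 := HasLoc.eq_zero (locCoord_qw one_pos) (by simpa using hl)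
    rw [map_zero]
    subst hF
    have h0 : HasLoc t (act δ (0 : ℍ → ℂ)) 0 := by
      have := HasLoc.const (t := t) 0
      rwa [map_zero] at this
    exact h0.unique hc.coord hS
  obtain ⟨P, Q, hP0, hQ0, hPQ⟩ := exists_eq_div_ne_zero hf
  have he := mul_evF_eq hl hPQ
  have hQ' := hasLoc_phi hc δ Q
  have hP' := hasLoc_phi hc δ P
  have h1 : HasLoc t (fun τ => evF Qbar N P (δ • τ)) (S * phi hc δ Q) :=
    (hS.mul hQ').congr_fun fun τ => (congrFun he (δ • τ)).symm
  have h2 := hP'.unique hc.coord h1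
  rw [← emb_toJField, ← emb_toJField, ← hPQ, map_mul] at h2
  exact mul_right_cancel₀ ((_root_.map_ne_zero _).2 fun h => hQ0 (by
    rw [evF_eq_zero_iff, ← coe_toJField, h]; rfl)) h2

end

/-- The holomorphic function of `f` when `div f = n • D` with `D` effective away from the cusps. -/
theorem exists_fun {n : ℕ} {f : jField Qbar N} (hf : f ≠ 0) {D : Divisor Qbar (jField Qbar N)}
    (hD : divisorOf f = n • D)
    (hpos : ∀ v : Place Qbar (jField Qbar N), 0 ≤ v.ord (jElt Qbar N) → 0 ≤ D v) :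
    ∃ F : ℍ → ℂ, MDiff F ∧ F ≠ 0 ∧ (∀ τ, ∃ k : ℕ, vanishOrd F τ = (n * k : ℕ)) ∧
      (∀ γ ∈ Gamma0 N, ∀ τ, F (γ • τ) = F τ) ∧ (∀ k, act k F ∈ regSub) ∧
      HasLoc (qw 1) F (lsC f) := by
  obtain ⟨P, Q, hP0, hQ0, hPQ⟩ := exists_eq_div_ne_zero hf
  set u := evF Qbar N P
  set z := evF Qbar N Q
  have hord : ∀ τ : ℍ, ∃ a b m : ℕ, vanishOrd u τ = a ∧ vanishOrd z τ = b ∧ a = n * m + b := by
    intro τ
    have hc := genCoord_discCoord N τ
    set σ := emb (K := Qbar) hc 1
    have hl : ∀ R : JPoly Qbar N, HasLoc (discCoord τ) (evF Qbar N R) (σ (toJField Qbar N R)) :=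
      fun R => by
        rw [emb_toJField]
        exact (hasLoc_phi hc 1 R).congr_fun fun x => by rw [one_smul]
    obtain ⟨a, ha, ha'⟩ := order_hasLoc_discCoord (mdiff_evF P) hP0 (hl P)
    obtain ⟨b, hb, hb'⟩ := order_hasLoc_discCoord (mdiff_evF Q) hQ0 (hl Q)
    have hj : 0 ≤ (σ (jElt Qbar N)).order := by
      obtain ⟨c, -, hc'⟩ := order_hasLoc_discCoord (mdiff_evF (MvPolynomial.X (JIdx.one N)))
        (fun h => by
          rw [evF_eq_zero_iff, ← coe_toJField] at h
          exact transcendental_jElt (K := Qbar) (N := N) (by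
            rw [jElt, show toJField Qbar N (MvPolynomial.X (JIdx.one N)) = 0 from Subtype.ext h]
            exact isAlgebraic_zero))
        (hl (MvPolynomial.X (JIdx.one N)))
      rw [jElt, hc']
      exact Int.natCast_nonneg c
    obtain ⟨⟨m, hm⟩, hnn⟩ := order_dvd_and_nonneg σ hD
    have hnn' := hnn _ hj hpos
    have hsum : (σ (toJField Qbar N P)).order = (σ f).order + (σ (toJField Qbar N Q)).order := by
      rw [← hPQ, map_mul, HahnSeries.order_mul ((_root_.map_ne_zero σ).2 hf)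
        ((_root_.map_ne_zero σ).2 fun h => hQ0 (by
          show evF Qbar N Q = 0
          rw [evF_eq_zero_iff, ← coe_toJField, h]; rfl))]
    rw [ha', hb', hm] at hsum
    rw [hm] at hnn'
    rcases Nat.eq_zero_or_pos n with rfl | hn
    · exact ⟨a, b, 0, ha, hb, by omega⟩
    · have hm0 : 0 ≤ m := nonneg_of_mul_nonneg_right hnn' (by exact_mod_cast hn)
      lift m to ℕ using hm0
      exact ⟨a, b, m, ha, hb, by exact_mod_cast hsum⟩
  obtain ⟨F, hF, hFe⟩ := PSEMI.exists_quotient (mdiff_evF P) (mdiff_evF Q) hQ0 fun τ => by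
    obtain ⟨a, b, m, ha, hb, he⟩ := hord τ
    rw [ha, hb]; exact Nat.cast_le.2 (by omega)
  have hF0 : F ≠ 0 := fun h => hP0 (hFe.trans (by rw [h, zero_mul]))
  have hinv : ∀ γ ∈ Gamma0 N, ∀ τ, F (γ • τ) = F τ := fun γ hγ τ => by
    have h : act γ F = F := PSEMI.eq_of_mul_eq_mul (PSEMI.mdiff_act hF γ) hF (mdiff_evF Q) hQ0
      (funext fun x => by
        have e1 := congrFun hFe (γ • x)
        have e2 := congrFun hFe x
        simp only [Pi.mul_apply, evF_gamma0 hγ] at e1 e2 ⊢
        show F (γ • x) * _ = _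
        rw [← e1, e2])
    exact congrFun h τ
  have hreg : ∀ k, act k F ∈ regSub := fun k => ⟨PSEMI.mdiff_act hF k,
    exists_bounded_quotient (w := N) (hasLoc_phi (genCoord_qw N) k P)
      (hasLoc_phi (genCoord_qw N) k Q) (PSEMI.act_ne_zero hQ0 k)
      (funext fun τ => congrFun hFe (k • τ))⟩
  refine ⟨F, hF, hF0, fun τ => ?_, hinv, hreg, ?_⟩
  · obtain ⟨a, b, m, ha, hb, he⟩ := hord τ
    refine ⟨m, ?_⟩
    have h := vanishOrd_mul hF (mdiff_evF Q) τ
    rw [← hFe, ha, hb] at h
    obtain ⟨c, hc⟩ := ENat.ne_top_iff_exists.mp (vanishOrd_ne_top hF hF0 τ)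
    rw [← hc] at h ⊢
    norm_cast at h ⊢
    omega
  · obtain ⟨S, hS⟩ := exists_hasLoc_of_invariant hinv (act_one F ▸ hreg 1)
    have h1 := ((hS.mul (hasLoc_evF Qbar N Q)).congr_fun fun τ => congrFun hFe τ).unique
      (locCoord_qw one_pos) (hasLoc_evF Qbar N P)
    have e := congrArg (fun y : jField Qbar N => lsC (y : LaurentSeries Qbar)) hPQ
    simp only [MulMemClass.coe_mul, coe_toJField, map_mul] at e
    have hne : lsC (evL Qbar N Q) ≠ 0 := fun h => hQ0 (by
      have h' := hasLoc_evF Qbar N Q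
      rw [show coeffMapC Qbar (evL Qbar N Q) = 0 from h] at h'
      exact HasLoc.eq_zero (locCoord_qw one_pos) h')
    rw [show lsC (f : LaurentSeries Qbar) = S from mul_right_cancel₀ hne (e.trans h1.symm)]
    exact hS

end FermatAgent.Flat.Kummer
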