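import Fermat.Agent.Flat.Kummer.Functions
import Fermat.Agent.ES.Local.SeriesRoot
import Fermat.Agent.ES.Forms.Classes
import Fermat.Agent.Curve.Expansion
import Fermat.Agent.Curve.Jac.Generic

/-!
# Roots of functions with divisible divisors: the Kummer relation

`IsKummer n φ c` relates a character `φ` of `Γ₀(N)` to a class `c` of degree zero on `X₀(N)`. It is
additive, forces `φ ^ n = 1` and `n • c = 0`, is injective in both directions, and every `n`-torsion
class has such a `φ`; in particular the `n`-torsion of the Jacobian is finite.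
-/

set_option autoImplicit false

noncomputable section

open UpperHalfPlane hiding I
open Filter Topology AlgebraicCurve
open scoped MatrixGroups Manifold
open CongruenceSubgroup (Gamma0)
open FermatAgent.Curve FermatAgent.GaloisBasic FermatAgent.Mazur
open FermatAgent.ES (act act_one act_mulFun vanishOrd exists_root mul_ne_zero_of_mdiff
  exists_eq_const_mul_of_pow_eq)

namespace FermatAgent.Flat.Kummer

attribute [local instance] Mazur.embAlg

/-- The embedding of series is injective. -/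
theorem lsC_injective : Function.Injective (lsC : LaurentSeries Qbar →+* LaurentSeries ℂ) :=
  RingHom.injective _

/-- Roots of series with algebraic coefficients have algebraic coefficients. -/
theorem exists_descend_root {n : ℕ} (hn : 0 < n) {S : LaurentSeries ℂ} {s : LaurentSeries Qbar}
    (hs : s ≠ 0) (h : S ^ n = lsC s) : ∃ t : LaurentSeries Qbar, lsC t = S ∧ t ^ n = s := by
  have hS0 : S ≠ 0 := fun h0 => hs (lsC_injective (by rw [← h, h0, zero_pow hn.ne', map_zero]))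
  have ho : s.order = n * S.order := by
    have h1 : (lsC s).order = s.order := by
      refine le_antisymm (HahnSeries.order_le_of_coeff_ne_zero ?_)
        ((HahnSeries.le_order_iff_forall ((_root_.map_ne_zero _).2 hs)).2 fun j hj => ?_)
      · rw [ModularCurve.coeffMap_coeff]
        exact (_root_.map_ne_zero _).2 (by rwa [Ne, HahnSeries.coeff_order_eq_zero])
      · rw [ModularCurve.coeffMap_coeff, HahnSeries.coeff_eq_zero_of_lt_order hj, map_zero]
    rw [← h1, ← h, HahnSeries.order_pow, nsmul_eq_mul]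
  set p := LaurentSeries.powerSeriesPart s
  have ha : PowerSeries.constantCoeff p ≠ 0 := by
    rw [← PowerSeries.coeff_zero_eq_constantCoeff_apply, LaurentSeries.powerSeriesPart_coeff,
      Nat.cast_zero, add_zero, Ne, HahnSeries.coeff_order_eq_zero]
    exact hs
  obtain ⟨b, hb⟩ := IsAlgClosed.exists_pow_nat_eq (PowerSeries.constantCoeff p) hn
  obtain ⟨w, hw⟩ := ES.exists_series_root
    (u := PowerSeries.C (PowerSeries.constantCoeff p)⁻¹ * p) (n := n) (v := (n : Qbar)⁻¹)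
    (by rw [map_mul, PowerSeries.constantCoeff_C, inv_mul_cancel₀ ha])
    (mul_inv_cancel₀ (Nat.cast_ne_zero.2 hn.ne'))
  set t : LaurentSeries Qbar :=
    HahnSeries.single S.order 1 * HahnSeries.ofPowerSeries ℤ Qbar (PowerSeries.C b * w)
  have ht : t ^ n = s := by
    have hp : (PowerSeries.C b * w) ^ n = p := by
      rw [mul_pow, hw, ← map_pow, hb, ← mul_assoc, ← map_mul, mul_inv_cancel₀ ha, map_one, one_mul]
    rw [mul_pow, HahnSeries.single_pow, one_pow, nsmul_eq_mul, ← ho, ← map_pow, hp]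
    exact LaurentSeries.single_order_mul_powerSeriesPart s
  have ht0 : lsC t ≠ 0 := (_root_.map_ne_zero _).2 fun h0 => hs (by
    rw [← ht, h0, zero_pow hn.ne'])
  have hr : (S * (lsC t)⁻¹) ^ n = 1 := by
    rw [mul_pow, h, inv_pow, ← map_pow, ht, mul_inv_cancel₀ ((_root_.map_ne_zero _).2 hs)]
  have : NeZero n := ⟨hn.ne'⟩
  obtain ⟨ζ, hζ⟩ := HasEnoughRootsOfUnity.exists_primitiveRoot Qbar n
  set e : Qbar →+* LaurentSeries ℂ := lsC.comp HahnSeries.C
  obtain ⟨i, -, hi⟩ := (hζ.map_of_injective e.injective).eq_pow_of_pow_eq_one hr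
  refine ⟨HahnSeries.C (ζ ^ i) * t, ?_, ?_⟩
  · rw [map_mul, show lsC (HahnSeries.C (ζ ^ i)) = e ζ ^ i by rw [← map_pow]; rfl, hi, mul_assoc,
      inv_mul_cancel₀ ht0, mul_one]
  · rw [mul_pow, ← map_pow, ← pow_mul, mul_comm i n, pow_mul, hζ.pow_eq_one, one_pow, map_one,
      one_mul, ht]

theorem pic0_mk_nsmul {K F : Type*} [Field K] [Field F] [Algebra K F]
    (D : Divisor.degZero (K := K) (F := F)) (i : ℕ) : Pic0.mk (i • D) = i • Pic0.mk D :=
  QuotientAddGroup.mk_nsmul _ D i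

variable {N : ℕ} [NeZero N]

/-- `φ` is the multiplier under `Γ₀(N)` of a holomorphic `g` on `ℍ` whose `n`-th power is, at
every cusp, meromorphic and, at `∞`, expands as a function `f` with `div f = n D`, `D` a
representative of `c`. -/
def IsKummer (n : ℕ) (φ : Gamma0 N →* ℂˣ) (c : Pic0 Qbar (jField Qbar N)) : Prop :=
  ∃ (D : Divisor.degZero (K := Qbar) (F := jField Qbar N)) (f : jField Qbar N) (g : ℍ → ℂ),
    Pic0.mk D = c ∧ f ≠ 0 ∧ divisorOf f = n • (D : Divisor Qbar (jField Qbar N)) ∧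
    MDiff g ∧ g ≠ 0 ∧ (∀ γ : Gamma0 N, ∀ τ, g ((γ : SL(2, ℤ)) • τ) = φ γ * g τ) ∧
    (∀ k, act k (g ^ n) ∈ regSub) ∧ HasLoc (qw 1) (g ^ n) (lsC (f : LaurentSeries Qbar))

/-- The trivial character is related to the zero class. -/
theorem isKummer_one (n : ℕ) : IsKummer (N := N) n 1 0 := by
  refine ⟨0, 1, 1, Pic0.mk_zero, one_ne_zero, Finsupp.ext fun v => ?_, mdifferentiable_const,
    one_ne_zero, fun γ τ => by simp, fun k => ?_, ?_⟩
  · simp
  · rw [one_pow]; exact regSub.one_mem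
  · rw [one_pow, OneMemClass.coe_one, map_one, ← map_one HahnSeries.C]
    exact HasLoc.const 1

/-- The relation is additive. -/
theorem IsKummer.mul {n : ℕ} {φ ψ : Gamma0 N →* ℂˣ} {c d : Pic0 Qbar (jField Qbar N)}
    (h : IsKummer n φ c) (h' : IsKummer n ψ d) : IsKummer n (φ * ψ) (c + d) := by
  obtain ⟨D, f, g, hc, hf, hD, hg, hg0, hm, hr, hl⟩ := h
  obtain ⟨E, f', g', hd, hf', hE, hg', hg'0, hm', hr', hl'⟩ := h'
  refine ⟨D + E, f * f', g * g', by rw [Pic0.mk_add, hc, hd], mul_ne_zero hf hf', ?_, hg.mul hg',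
    mul_ne_zero_of_mdiff hg' hg hg0 hg'0, fun γ τ => ?_, fun k => ?_, ?_⟩
  · rw [divisorOf_mul hf hf', hD, hE, AddSubgroup.coe_add, smul_add]
  · simp only [Pi.mul_apply, MonoidHom.mul_apply, Units.val_mul, hm, hm']; ring
  · rw [mul_pow, act_mulFun]; exact mul_mem (hr k) (hr' k)
  · rw [mul_pow, MulMemClass.coe_mul, map_mul]; exact hl.mul hl'

/-- The relation is compatible with powers. -/
theorem IsKummer.pow {n : ℕ} {φ : Gamma0 N →* ℂˣ} {c : Pic0 Qbar (jField Qbar N)}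
    (h : IsKummer n φ c) (i : ℕ) : IsKummer n (φ ^ i) (i • c) := by
  induction i with
  | zero => rw [pow_zero φ, zero_nsmul]; exact isKummer_one n
  | succ i ih => rw [pow_succ φ, succ_nsmul]; exact ih.mul h

/-- A class with a multiplier is killed by `n`. -/
theorem IsKummer.nsmul_eq_zero {n : ℕ} {φ : Gamma0 N →* ℂˣ} {c : Pic0 Qbar (jField Qbar N)}
    (h : IsKummer n φ c) : n • c = 0 := by
  obtain ⟨D, f, g, rfl, hf, hD, -⟩ := h
  rw [← pic0_mk_nsmul, ← Pic0.mk_zero, Jac.pic0_mk_eq_iff,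
    ZeroMemClass.coe_zero, sub_zero, AddSubmonoidClass.coe_nsmul, ← hD]
  exact isPrincipal_iff.2 ⟨f, hf, rfl⟩

/-- The multiplier is killed by `n`: `g ^ n` is `Γ₀(N)`-invariant. -/
theorem IsKummer.pow_eq_one {n : ℕ} {φ : Gamma0 N →* ℂˣ} {c : Pic0 Qbar (jField Qbar N)}
    (h : IsKummer n φ c) : φ ^ n = 1 := by
  obtain ⟨D, f, g, -, hf, -, hg, hg0, hm, -, hl⟩ := h
  obtain ⟨P, Q, hP0, hQ0, hPQ⟩ := exists_eq_div_ne_zero hf
  have he := mul_evF_eq hl hPQ
  obtain ⟨τ, hτ⟩ := Function.ne_iff.1 hP0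
  refine MonoidHom.ext fun γ => Units.ext ?_
  have h1 := congrFun he ((γ : SL(2, ℤ)) • τ)
  have h2 := congrFun he τ
  simp only [Pi.mul_apply, Pi.pow_apply, evF_gamma0 γ.2, hm, mul_pow] at h1 h2
  rw [mul_assoc, h2] at h1
  rw [MonoidHom.pow_apply, Units.val_pow_eq_pow_val, MonoidHom.one_apply, Units.val_one]
  exact mul_right_cancel₀ hτ (h1.trans (one_mul _).symm)

/-- A function whose power is meromorphic at a cusp is so itself. -/
theorem act_mem_regSub_of_pow {n : ℕ} (hn : 0 < n) {g : ℍ → ℂ} (hg : MDiff g) {k : SL(2, ℤ)}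
    (h : act k (g ^ n) ∈ regSub) : act k g ∈ regSub := by
  obtain ⟨-, M, hM⟩ := h
  refine ⟨PSEMI.mdiff_act hg k, M, ?_⟩
  have hb : IsBoundedAtImInfty fun τ : ℍ => qw 1 τ ^ (M * (n - 1)) :=
    ((qParam_tendsto_atImInfty (h := 1) one_pos).pow _).isBigO_one ℝ
  have h1 : (fun τ => (qw 1 τ ^ M * act k g τ) ^ n) =O[atImInfty] fun _ : ℍ => (1 : ℝ) ^ n := by
    refine ((hM.mul hb).congr_left fun τ => ?_).congr_right fun τ => by simp
    show qw 1 τ ^ M * (g (k • τ)) ^ n * qw 1 τ ^ (M * (n - 1)) = (qw 1 τ ^ M * g (k • τ)) ^ n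
    rw [mul_pow (qw 1 τ ^ M), ← pow_mul, mul_right_comm, ← pow_add]
    congr 2
    conv_rhs => rw [show n = 1 + (n - 1) by omega, mul_add, mul_one]
  exact Asymptotics.IsBigO.of_pow hn.ne' h1

/-- A trivial multiplier forces a trivial class. -/
theorem IsKummer.eq_zero {n : ℕ} (hn : 0 < n) {c : Pic0 Qbar (jField Qbar N)}
    (h : IsKummer n (1 : Gamma0 N →* ℂˣ) c) : c = 0 := by
  obtain ⟨D, f, g, rfl, hf, hD, hg, hg0, hm, hr, hl⟩ := h
  have hinv : ∀ γ ∈ Gamma0 N, ∀ τ, g (γ • τ) = g τ := fun γ hγ τ => by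
    simpa using hm ⟨γ, hγ⟩ τ
  have hreg : ∀ k, act k g ∈ regSub := fun k => act_mem_regSub_of_pow hn hg (hr k)
  obtain ⟨S, hS⟩ := exists_hasLoc_of_invariant hinv (act_one g ▸ hreg 1)
  obtain ⟨t, htS, htf⟩ := exists_descend_root hn
    (fun h0 => hf (Subtype.ext h0)) ((hS.pow n).unique (locCoord_qw one_pos) hl)
  have htF : t ∈ jField Qbar N := mem_jField_of_invariant hinv hreg (htS ▸ hS)
  set u : jField Qbar N := ⟨t, htF⟩
  have hu : u ^ n = f := Subtype.ext htf
  have hu0 : u ≠ 0 := fun h0 => hf (by rw [← hu, h0, zero_pow hn.ne'])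
  rw [← Pic0.mk_zero, Jac.pic0_mk_eq_iff, ZeroMemClass.coe_zero,
    sub_zero]
  refine isPrincipal_iff.2 ⟨u, hu0, Finsupp.ext fun v => ?_⟩
  have h1 := DFunLike.congr_fun hD v
  rw [divisorOf_apply, ← hu, ord_pow, Finsupp.smul_apply, nsmul_eq_mul] at h1
  rw [divisorOf_apply]
  exact (mul_left_cancel₀ (Nat.cast_ne_zero.2 hn.ne') h1).symm

/-- A trivial class forces a trivial multiplier. -/
theorem IsKummer.eq_one {n : ℕ} (hn : 0 < n) {φ : Gamma0 N →* ℂˣ}
    (h : IsKummer n φ (0 : Pic0 Qbar (jField Qbar N))) : φ = 1 := by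
  obtain ⟨D, f, g, hc, hf, hD, hg, hg0, hm, -, hl⟩ := h
  rw [← Pic0.mk_zero, Jac.pic0_mk_eq_iff, ZeroMemClass.coe_zero,
    sub_zero, isPrincipal_iff] at hc
  obtain ⟨u, hu, hDu⟩ := hc
  obtain ⟨a, ha⟩ := exists_eq_algebraMap (K := Qbar) (f := f * (u ^ n)⁻¹) fun v => by
    have h1 := DFunLike.congr_fun hD v
    rw [divisorOf_apply, hDu, Finsupp.smul_apply, nsmul_eq_mul, divisorOf_apply] at h1
    rw [v.ord_mul hf (inv_ne_zero (pow_ne_zero n hu)), Place.ord_inv, ord_pow, h1]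
    ring
  have hfu : f = algebraMap Qbar _ a * u ^ n := by
    rw [← ha, mul_assoc, inv_mul_cancel₀ (pow_ne_zero n hu), mul_one]
  obtain ⟨b, hb⟩ := IsAlgClosed.exists_pow_nat_eq a hn
  set w : jField Qbar N := algebraMap Qbar _ b * u
  have hw : w ^ n = f := by rw [mul_pow, ← map_pow, hb, hfu]
  obtain ⟨P, Q, hP0, hQ0, hPQ⟩ := exists_eq_div_ne_zero (f := w) fun h0 => hf (by
    rw [← hw, h0, zero_pow hn.ne'])
  have he : g ^ n * evF Qbar N (Q ^ n) = evF Qbar N (P ^ n) :=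
    mul_evF_eq hl (by rw [map_pow, map_pow, ← hw, ← mul_pow, hPQ])
  rw [map_pow, map_pow, ← mul_pow] at he
  obtain ⟨ω, -, hω⟩ := exists_eq_const_mul_of_pow_eq (hg.mul (mdiff_evF Q)) (mdiff_evF P) hn hP0 he
  obtain ⟨τ, hτ⟩ := Function.ne_iff.1
    (mul_ne_zero_of_mdiff (mdiff_evF Q) hg hg0 hQ0)
  refine MonoidHom.ext fun γ => Units.ext ?_
  have h1 := hω ((γ : SL(2, ℤ)) • τ)
  simp only [Pi.mul_apply, evF_gamma0 γ.2, hm, mul_assoc] at h1
  rw [← hω τ] at h1
  exact mul_right_cancel₀ hτ (h1.trans (one_mul _).symm)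

/-- A multiplier determines the class. -/
theorem IsKummer.class_unique {n : ℕ} (hn : 0 < n) {φ : Gamma0 N →* ℂˣ}
    {c d : Pic0 Qbar (jField Qbar N)} (h : IsKummer n φ c) (h' : IsKummer n φ d) : c = d := by
  have h1 := h.mul (h'.pow (n - 1))
  rw [← pow_succ' φ, Nat.sub_add_cancel hn, h.pow_eq_one] at h1
  have h2 := h1.eq_zero hn
  have h3 : n • d = (n - 1) • d + d := by rw [← succ_nsmul, Nat.sub_add_cancel hn]
  rw [h'.nsmul_eq_zero] at h3
  rw [← sub_eq_zero, ← h2, eq_neg_of_add_eq_zero_left h3.symm, sub_eq_add_neg]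

/-- Linear factors in `j` absorb the negative part of a divisor away from the cusps. -/
theorem exists_clearing (D : Divisor Qbar (jField Qbar N)) :
    ∃ (Z : Finset (Place Qbar (jField Qbar N))) (a : Place Qbar (jField Qbar N) → Qbar)
      (e : Place Qbar (jField Qbar N) → ℕ),
      (∀ w, jElt Qbar N - algebraMap Qbar _ (a w) ≠ 0) ∧
        ∀ v : Place Qbar (jField Qbar N), 0 ≤ v.ord (jElt Qbar N) →
          0 ≤ D v + ∑ w ∈ Z, (e w : ℤ) * v.ord (jElt Qbar N - algebraMap Qbar _ (a w)) := by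
  classical
  set j := jElt Qbar N
  have hval : ∀ v : Place Qbar (jField Qbar N), ∃ a : Qbar, 0 ≤ v.ord j →
      OrdGE v 1 (j - algebraMap Qbar _ a) := fun v => by
    by_cases hv : 0 ≤ v.ord j
    · obtain ⟨a, ha⟩ := exists_sub_algebraMap (v := v) (f := j) (Or.inr hv)
      exact ⟨a, fun _ => ha⟩
    · exact ⟨0, fun h => absurd h hv⟩
  choose a ha using hval
  have hne : ∀ v, j - algebraMap Qbar _ (a v) ≠ 0 := fun v h =>
    transcendental_jElt (K := Qbar) (N := N) (by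
      rw [show jElt Qbar N = algebraMap Qbar _ (a v) from sub_eq_zero.1 h]
      exact isAlgebraic_algebraMap _)
  refine ⟨D.support.filter fun v => 0 ≤ v.ord j, a, fun w => (-D w).toNat, hne, fun v hv => ?_⟩
  have hnn : ∀ w, 0 ≤ ((-D w).toNat : ℤ) * v.ord (j - algebraMap Qbar _ (a w)) := fun w =>
    mul_nonneg (Int.natCast_nonneg _)
      ((ordGE_iff_le (hne w)).1 ((show OrdGE v 0 j from Or.inr hv).sub (ordGE_algebraMap _)))
  by_cases hvZ : v ∈ D.support.filter fun v => 0 ≤ v.ord j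
  · have h1 := (le_mul_of_one_le_right (Int.natCast_nonneg (-D v).toNat)
      ((ordGE_iff_le (hne v)).1 (ha v hv))).trans
        (Finset.single_le_sum (fun w _ => hnn w) hvZ)
    have h2 := Int.self_le_toNat (-D v)
    linarith
  · rw [show D v = 0 by
      by_contra hne0
      exact hvZ (Finset.mem_filter.2 ⟨Finsupp.mem_support_iff.2 hne0, hv⟩), zero_add]
    exact Finset.sum_nonneg fun w _ => hnn w

/-- Representatives whose divisor is effective away from the cusps. -/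
theorem exists_rep {n : ℕ} {c : Pic0 Qbar (jField Qbar N)} (hc : n • c = 0) :
    ∃ (D : Divisor.degZero (K := Qbar) (F := jField Qbar N)) (f : jField Qbar N),
      Pic0.mk D = c ∧ f ≠ 0 ∧ divisorOf f = n • (D : Divisor Qbar (jField Qbar N)) ∧
        ∀ v : Place Qbar (jField Qbar N), 0 ≤ v.ord (jElt Qbar N) →
          0 ≤ (D : Divisor Qbar (jField Qbar N)) v := by
  classical
  obtain ⟨D₀, rfl⟩ := Pic0.mk_surjective c
  rw [← pic0_mk_nsmul, ← Pic0.mk_zero, Jac.pic0_mk_eq_iff,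
    ZeroMemClass.coe_zero, sub_zero, AddSubmonoidClass.coe_nsmul, isPrincipal_iff] at hc
  obtain ⟨f₀, hf₀, hD₀⟩ := hc
  obtain ⟨Z, a, e, hne, hpos⟩ := exists_clearing (D₀ : Divisor Qbar (jField Qbar N))
  set h := ∏ v ∈ Z, (jElt Qbar N - algebraMap Qbar _ (a v)) ^ e v
  have hh : h ≠ 0 := Finset.prod_ne_zero_iff.2 fun v _ => pow_ne_zero _ (hne v)
  set E : Divisor.degZero (K := Qbar) (F := jField Qbar N) := ⟨divisorOf h,
    by rw [Divisor.mem_degZero, degree_divisorOf]⟩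
  refine ⟨D₀ + E, f₀ * h ^ n, ?_, mul_ne_zero hf₀ (pow_ne_zero n hh), ?_, fun v hv => ?_⟩
  · rw [Jac.pic0_mk_eq_iff, AddSubgroup.coe_add, add_sub_cancel_left]
    exact isPrincipal_iff.2 ⟨h, hh, rfl⟩
  · rw [divisorOf_mul hf₀ (pow_ne_zero n hh), ← hD₀, AddSubgroup.coe_add, smul_add]
    congr 1
    exact Finsupp.ext fun v => by simp [E, ord_pow]
  · rw [AddSubgroup.coe_add, Finsupp.add_apply]
    show 0 ≤ _ + v.ord h
    rw [ord_prod _ _ fun w _ => pow_ne_zero _ (hne w)]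
    simpa only [ord_pow] using hpos v hv

/-- A function with divisor `n D`, `D` effective away from the cusps, has a holomorphic `n`-th
root on `ℍ`, and the root has a multiplier of exponent `n` under `Γ₀(N)`. -/
theorem exists_multiplier_root {n : ℕ} (hn : 0 < n) {f : jField Qbar N} (hf : f ≠ 0)
    {D : Divisor Qbar (jField Qbar N)} (hdiv : divisorOf f = n • D)
    (hpos : ∀ v : Place Qbar (jField Qbar N), 0 ≤ v.ord (jElt Qbar N) → 0 ≤ D v) :
    ∃ (φ : Gamma0 N →* ℂˣ) (g : ℍ → ℂ), φ ^ n = 1 ∧ MDiff g ∧ g ≠ 0 ∧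
      (∀ γ : Gamma0 N, ∀ τ, g ((γ : SL(2, ℤ)) • τ) = φ γ * g τ) ∧
      (∀ k, act k (g ^ n) ∈ regSub) ∧ HasLoc (qw 1) (g ^ n) (lsC (f : LaurentSeries Qbar)) := by
  obtain ⟨F, hF, hF0, hord, hinv, hreg, hloc⟩ := exists_fun hf hdiv hpos
  obtain ⟨g, hg, hgn⟩ := exists_root hF hF0 hn hord
  have hg0 : g ≠ 0 := fun h => hF0 (by rw [← hgn, h, zero_pow hn.ne'])
  have hmult : ∀ γ : Gamma0 N, ∃ u : ℂˣ, u ^ n = 1 ∧ ∀ τ, act (γ : SL(2, ℤ)) g τ = u * g τ :=
    fun γ => exists_eq_const_mul_of_pow_eq (PSEMI.mdiff_act hg _) hg hn hg0 (funext fun τ => by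
      show g ((γ : SL(2, ℤ)) • τ) ^ n = g τ ^ n
      have e1 := congrFun hgn ((γ : SL(2, ℤ)) • τ)
      have e2 := congrFun hgn τ
      simp only [Pi.pow_apply] at e1 e2
      rw [e1, e2, hinv _ γ.2])
  choose u hu hu' using hmult
  obtain ⟨τ₀, hτ₀⟩ := Function.ne_iff.1 hg0
  let φ : Gamma0 N →* ℂˣ :=
    { toFun := u
      map_one' := Units.ext (mul_right_cancel₀ hτ₀ (by
        rw [← hu' 1 τ₀, Subgroup.coe_one, act_one, Units.val_one, one_mul]))
      map_mul' := fun x y => Units.ext (mul_right_cancel₀ hτ₀ (by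
        rw [← hu' (x * y) τ₀, Subgroup.coe_mul]
        show g (((x : SL(2, ℤ)) * (y : SL(2, ℤ))) • τ₀) = _
        rw [mul_smul, show g ((x : SL(2, ℤ)) • ((y : SL(2, ℤ)) • τ₀)) = _ from hu' x _,
          show g ((y : SL(2, ℤ)) • τ₀) = _ from hu' y _, Units.val_mul, mul_assoc])) }
  exact ⟨φ, g, MonoidHom.ext fun γ => hu γ, hg, hg0, fun γ τ => hu' γ τ,
    fun k => hgn ▸ hreg k, hgn ▸ hloc⟩

/-- Every `n`-torsion class of `X₀(N)` has a multiplier. -/
theorem exists_isKummer {n : ℕ} (hn : 0 < n) {c : Pic0 Qbar (jField Qbar N)} (hc : n • c = 0) :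
    ∃ φ : Gamma0 N →* ℂˣ, IsKummer n φ c := by
  obtain ⟨D, f, hD, hf, hdiv, hpos⟩ := exists_rep hc
  obtain ⟨φ, g, -, h⟩ := exists_multiplier_root hn hf hdiv hpos
  exact ⟨φ, D, f, g, hD, hf, hdiv, h⟩

/-- The `n`-torsion of the Jacobian of `X₀(N)` is finite. -/
theorem finite_torsion {n : ℕ} (hn : 0 < n) :
    Finite {c : Pic0 Qbar (jField Qbar N) // n • c = 0} := by
  have : NeZero n := ⟨hn.ne'⟩
  have := ES.finite_homs_pow_eq_one (Γ := Gamma0 N) n
  choose φ hφ using fun c : {c : Pic0 Qbar (jField Qbar N) // n • c = 0} => exists_isKummer hn c.2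
  refine Finite.of_injective (β := {φ : Gamma0 N →* ℂˣ // φ ^ n = 1})
    (fun c => ⟨φ c, (hφ c).pow_eq_one⟩) fun c d h => Subtype.ext ?_
  have e : φ c = φ d := congrArg Subtype.val h
  exact (hφ c).class_unique hn (e.symm ▸ hφ d)

end FermatAgent.Flat.Kummer
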