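import Fermat.Agent.Curve.Local
import Fermat.Agent.Curve.Embeddings
import Fermat.Agent.ES.Ring.Order

/-!
# Orders of functions in disc coordinates and at embeddings

The order of the expansion of a holomorphic function in the disc coordinate at `τ₀` is its order of
vanishing at `τ₀`. At any embedding of a function field in Laurent series, a function with divisor
`n D` has order a multiple of `n`, non-negative where `D` is effective.
-/

set_option autoImplicit false

noncomputable section

open UpperHalfPlane hiding I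
open AlgebraicCurve Module FermatAgent.Curve
open FermatAgent.ES (vanishOrd vanishOrd_ne_top analyticAt_of_mdiff)
open scoped Manifold

namespace FermatAgent.Flat.Kummer

theorem exists_order_taylorPS {G : ℂ → ℂ} (hG : AnalyticAt ℂ G 0) {k : ℕ}
    (hk : analyticOrderAt G 0 = k) :
    (HahnSeries.ofPowerSeries ℤ ℂ (taylorPS G)).order = k := by
  obtain ⟨H, hH, hH0, heq⟩ := hG.analyticOrderAt_eq_natCast.mp hk
  have h1 : taylorPS G = PowerSeries.X ^ k * taylorPS H := by
    rw [← taylorPS_id_pow, ← taylorPS_mul (by fun_prop) hH]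
    refine taylorPS_congr ?_
    filter_upwards [heq] with z hz
    simpa [sub_zero, smul_eq_mul] using hz
  have hc : (HahnSeries.ofPowerSeries ℤ ℂ (taylorPS H)).coeff ((0 : ℕ) : ℤ) ≠ 0 := by
    rw [HahnSeries.ofPowerSeries_apply_coeff, coeff_zero_taylorPS]; exact hH0
  have hne : HahnSeries.ofPowerSeries ℤ ℂ (taylorPS H) ≠ 0 := fun h => hc (by rw [h]; rfl)
  rw [h1, map_mul, HahnSeries.ofPowerSeries_X_pow,
    HahnSeries.order_mul (by simp) hne, HahnSeries.order_single one_ne_zero]
  have h0 : (HahnSeries.ofPowerSeries ℤ ℂ (taylorPS H)).order = 0 := by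
    refine le_antisymm (HahnSeries.order_le_of_coeff_ne_zero hc) ?_
    refine (HahnSeries.le_order_iff_forall hne).2 fun j hj => ?_
    rw [HahnSeries.ofPowerSeries_apply, HahnSeries.embDomain_of_notMem_range]
    rintro ⟨i, hi⟩
    simp at hi
    omega
  rw [h0, add_zero]

/-- The order of the disc expansion is the order of vanishing. -/
theorem order_hasLoc_discCoord {τ₀ : ℍ} {f : ℍ → ℂ} (hf : MDiff f) (hf0 : f ≠ 0)
    {P : LaurentSeries ℂ} (h : HasLoc (discCoord τ₀) f P) :
    ∃ k : ℕ, vanishOrd f τ₀ = k ∧ P.order = k := by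
  obtain ⟨k, hk⟩ := ENat.ne_top_iff_exists.mp (vanishOrd_ne_top hf hf0 τ₀)
  refine ⟨k, hk.symm, ?_⟩
  rw [h.unique (locCoord_discCoord τ₀) (hasLoc_discCoord τ₀ hf)]
  refine exists_order_taylorPS (analyticAt_of_ball (differentiableOn_discFun τ₀ hf)) ?_
  have h0 : discInv τ₀ 0 = (τ₀ : ℂ) := by simp [discInv]
  have han : AnalyticAt ℂ (discInv τ₀) 0 :=
    analyticAt_of_ball fun s hs =>
      (differentiableAt_discInv τ₀ (mem_ball_zero_iff.1 hs)).differentiableWithinAt
  have hd : HasDerivAt (discInv τ₀) ((τ₀ : ℂ) - (starRingEnd ℂ) (τ₀ : ℂ)) 0 := by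
    have h1 := (((hasDerivAt_id (0 : ℂ)).const_mul ((starRingEnd ℂ) (τ₀ : ℂ))).const_sub
      (τ₀ : ℂ)).div
      ((hasDerivAt_id (0 : ℂ)).const_sub 1) (by simp)
    refine h1.congr_deriv ?_
    simp
    ring
  rw [show discFun τ₀ f = (f ∘ ofComplex) ∘ discInv τ₀ from rfl,
    analyticOrderAt_comp_of_deriv_ne_zero han (by
      rw [hd.deriv]; exact sub_conj_ne_zero τ₀ τ₀), h0]
  exact hk.symm

/-- If `div f = n D`, then at every embedding the order of `f` is divisible by `n`, and it is
non-negative if, for some `j` of non-negative order there, `D` is effective outside the poles of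
`j`. -/
theorem order_dvd_and_nonneg {K F L : Type*} [Field K] [Field F] [Algebra K F]
    [IsFF K F] [Field L] [Algebra K L] (σ : F →ₐ[K] LaurentSeries L) {n : ℕ} {f : F}
    {D : Divisor K F} (hD : divisorOf f = n • D) :
    (n : ℤ) ∣ (σ f).order ∧ ∀ j : F, 0 ≤ (σ j).order → (∀ v, 0 ≤ v.ord j → 0 ≤ D v) →
      0 ≤ (σ f).order := by
  by_cases hx : ∃ x, 0 < (σ x).order
  · obtain ⟨x, hx⟩ := hx
    obtain ⟨t, -, ht⟩ := exists_ord_eq_one (centre σ hx)
    have he := order_uniformizer_pos σ hx ht
    have hDv : (centre σ hx).ord f = (n : ℤ) * D (centre σ hx) := by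
      have := DFunLike.congr_fun hD (centre σ hx)
      rwa [divisorOf_apply, Finsupp.smul_apply, nsmul_eq_mul] at this
    rw [order_apply σ hx ht f, hDv]
    refine ⟨Dvd.dvd.mul_left (Dvd.intro _ rfl) _, fun j hj hpos => ?_⟩
    rw [order_apply σ hx ht j] at hj
    exact mul_nonneg he.le (mul_nonneg (Int.natCast_nonneg n)
      (hpos _ (nonneg_of_mul_nonneg_right hj he)))
  · push Not at hx
    have h0 : ∀ y, (σ y).order = 0 := fun y => by
      rcases eq_or_ne y 0 with rfl | hy
      · rw [map_zero, HahnSeries.order_zero]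
      have h1 := hx y
      have h2 := hx y⁻¹
      rw [map_inv₀, order_inv ((_root_.map_ne_zero σ).2 hy)] at h2
      omega
    rw [h0 f]
    exact ⟨dvd_zero _, fun _ _ _ => le_rfl⟩

end FermatAgent.Flat.Kummer
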